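import Fermat.Agent.S27.H2186.Chart6746.Conv

/-!
# S27 (helper6746), chart package, part 2: Laurent series meromorphic on a disc

`Mer ε` is the subfield of `LaurentSeries ℂ` of quotients `p / q` of power series converging on
the open disc of radius `ε`.  Each `z ∈ Mer ε` has a meromorphic function `mfun ε z` on the disc
(in normal form), compatible with `+`, `*` up to punctured neighbourhoods, and an order
`wAt ε τ z : ℤ` at every point `τ` of the disc; at `τ = 0` this is the order of the Laurent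
series.  Pure Mathlib.
-/

set_option autoImplicit false

namespace Fermat.Agent.S27.H2186.Chart6746

open PowerSeries Metric Set Filter Topology

noncomputable section

/-- The embedding of power series into Laurent series. -/
abbrev L : PowerSeries ℂ →+* LaurentSeries ℂ := HahnSeries.ofPowerSeries ℤ ℂ

theorem L_injective : Function.Injective L := HahnSeries.ofPowerSeries_injective

theorem L_ne_zero {q : PowerSeries ℂ} (hq : q ≠ 0) : L q ≠ 0 :=
  fun h => hq (L_injective (by rw [h, map_zero]))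

/-- `z = p / q` with `p`, `q` convergent on the disc of radius `ε`. -/
def IsRep (ε : ℝ) (z : LaurentSeries ℂ) (p q : PowerSeries ℂ) : Prop :=
  Conv ε p ∧ Conv ε q ∧ q ≠ 0 ∧ z * L q = L p

variable {ε : ℝ} {z z' : LaurentSeries ℂ} {p q p' q' : PowerSeries ℂ} {τ : ℂ}

theorem IsRep.mul (h : IsRep ε z p q) (h' : IsRep ε z' p' q') :
    IsRep ε (z * z') (p * p') (q * q') :=
  ⟨h.1.mul h'.1, h.2.1.mul h'.2.1, mul_ne_zero h.2.2.1 h'.2.2.1, by
    rw [map_mul, map_mul, ← h.2.2.2, ← h'.2.2.2]; ring⟩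

theorem IsRep.add (h : IsRep ε z p q) (h' : IsRep ε z' p' q') :
    IsRep ε (z + z') (p * q' + p' * q) (q * q') :=
  ⟨(h.1.mul h'.2.1).add (h'.1.mul h.2.1), h.2.1.mul h'.2.1, mul_ne_zero h.2.2.1 h'.2.2.1, by
    rw [map_mul, map_add, map_mul, map_mul, ← h.2.2.2, ← h'.2.2.2]; ring⟩

theorem IsRep.neg (h : IsRep ε z p q) : IsRep ε (-z) (-p) q :=
  ⟨h.1.neg, h.2.1, h.2.2.1, by rw [map_neg, ← h.2.2.2]; ring⟩

theorem isRep_L (hp : Conv ε p) : IsRep ε (L p) p 1 :=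
  ⟨hp, conv_one ε, one_ne_zero, by simp⟩

theorem isRep_zero (ε : ℝ) : IsRep ε 0 0 1 := by
  simpa using isRep_L (conv_zero ε)

theorem isRep_one (ε : ℝ) : IsRep ε 1 1 1 := by
  simpa using isRep_L (conv_one ε)

theorem IsRep.num_ne_zero (h : IsRep ε z p q) (hz : z ≠ 0) : p ≠ 0 := by
  rintro rfl
  have := h.2.2.2
  rw [map_zero] at this
  exact (mul_ne_zero hz (L_ne_zero h.2.2.1)) this

theorem IsRep.inv (h : IsRep ε z p q) (hz : z ≠ 0) : IsRep ε z⁻¹ q p :=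
  ⟨h.2.1, h.1, h.num_ne_zero hz, by
    rw [← h.2.2.2, ← mul_assoc, inv_mul_cancel₀ hz, one_mul]⟩

theorem IsRep.cross (h : IsRep ε z p q) (h' : IsRep ε z p' q') : p * q' = p' * q := by
  apply L_injective
  rw [map_mul, map_mul, ← h.2.2.2, ← h'.2.2.2]; ring

/-- The field of Laurent series which are quotients of power series converging on the open disc
of radius `ε`. -/
def Mer (ε : ℝ) : Subfield (LaurentSeries ℂ) where
  carrier := {z | ∃ p q, IsRep ε z p q}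
  mul_mem' := by
    rintro _ _ ⟨p, q, h⟩ ⟨p', q', h'⟩
    exact ⟨_, _, h.mul h'⟩
  one_mem' := ⟨1, 1, isRep_one ε⟩
  add_mem' := by
    rintro _ _ ⟨p, q, h⟩ ⟨p', q', h'⟩
    exact ⟨_, _, h.add h'⟩
  zero_mem' := ⟨0, 1, isRep_zero ε⟩
  neg_mem' := by
    rintro _ ⟨p, q, h⟩
    exact ⟨_, _, h.neg⟩
  inv_mem' := by
    rintro z ⟨p, q, h⟩
    by_cases hz : z = 0
    · subst hz
      rw [inv_zero]
      exact ⟨0, 1, isRep_zero ε⟩
    · exact ⟨_, _, h.inv hz⟩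

theorem mem_Mer : z ∈ Mer ε ↔ ∃ p q, IsRep ε z p q := Iff.rfl

theorem L_mem_Mer (hp : Conv ε p) : L p ∈ Mer ε := ⟨p, 1, isRep_L hp⟩

theorem Mer_mono {ε' : ℝ} (h : ε' ≤ ε) : Mer ε ≤ Mer ε' := by
  rintro z ⟨p, q, hp, hq, hq0, he⟩
  exact ⟨p, q, hp.mono h, hq.mono h, hq0, he⟩

/-- The quotient function `σ ↦ p(σ) / q(σ)`. -/
def quotFn (p q : PowerSeries ℂ) : ℂ → ℂ := fun σ => fn p σ / fn q σ

theorem IsRep.meromorphicOn (h : IsRep ε z p q) : MeromorphicOn (quotFn p q) (ball 0 ε) := by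
  intro σ hσ
  rw [mem_ball_zero_iff] at hσ
  exact (h.1.analyticAt hσ).meromorphicAt.div (h.2.1.analyticAt hσ).meromorphicAt

open Classical in
/-- The meromorphic function on the disc of radius `ε` (in normal form) attached to a Laurent
series in `Mer ε`; `0` for other Laurent series. -/
def mfun (ε : ℝ) (z : LaurentSeries ℂ) : ℂ → ℂ :=
  if h : ∃ p q, IsRep ε z p q then
    toMeromorphicNFOn (quotFn h.choose h.choose_spec.choose) (ball 0 ε)
  else 0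

theorem eventually_norm_lt (hτ : ‖τ‖ < ε) : ∀ᶠ σ in 𝓝[≠] τ, ‖σ‖ < ε := by
  have h : ball (0 : ℂ) ε ∈ 𝓝 τ := isOpen_ball.mem_nhds (mem_ball_zero_iff.mpr hτ)
  filter_upwards [nhdsWithin_le_nhds h] with σ hσ using mem_ball_zero_iff.mp hσ

theorem quotFn_eventuallyEq (hε : 0 < ε) (h : IsRep ε z p q) (h' : IsRep ε z p' q')
    (hτ : ‖τ‖ < ε) : quotFn p q =ᶠ[𝓝[≠] τ] quotFn p' q' := by
  filter_upwards [eventually_norm_lt hτ, h.2.1.eventually_ne_zero hε h.2.2.1 hτ,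
    h'.2.1.eventually_ne_zero hε h'.2.2.1 hτ] with σ hσ h1 h2
  have hc : fn (p * q') σ = fn (p' * q) σ := by rw [h.cross h']
  rw [fn_mul h.1 h'.2.1 hσ, fn_mul h'.1 h.2.1 hσ] at hc
  unfold quotFn
  rw [div_eq_div_iff h1 h2]
  exact hc

theorem mfun_eventuallyEq (hε : 0 < ε) (h : IsRep ε z p q) (hτ : ‖τ‖ < ε) :
    mfun ε z =ᶠ[𝓝[≠] τ] quotFn p q := by
  have hex : ∃ p q, IsRep ε z p q := ⟨p, q, h⟩
  have h0 := hex.choose_spec.choose_spec
  unfold mfun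
  rw [dif_pos hex]
  exact (h0.meromorphicOn.toMeromorphicNFOn_eq_self_on_nhdsNE (mem_ball_zero_iff.mpr hτ)).trans
    (quotFn_eventuallyEq hε h0 h hτ)

theorem mfun_meromorphicNFOn (ε : ℝ) (z : LaurentSeries ℂ) :
    MeromorphicNFOn (mfun ε z) (ball 0 ε) := by
  unfold mfun
  split_ifs with h
  · exact meromorphicNFOn_toMeromorphicNFOn _ _
  · exact analyticOnNhd_const.meromorphicNFOn

theorem mfun_meromorphicNFAt (ε : ℝ) (z : LaurentSeries ℂ) (hτ : ‖τ‖ < ε) :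
    MeromorphicNFAt (mfun ε z) τ :=
  mfun_meromorphicNFOn ε z (mem_ball_zero_iff.mpr hτ)

theorem mfun_meromorphicAt (ε : ℝ) (z : LaurentSeries ℂ) (hτ : ‖τ‖ < ε) :
    MeromorphicAt (mfun ε z) τ :=
  (mfun_meromorphicNFAt ε z hτ).meromorphicAt

theorem mfun_add (hε : 0 < ε) (hz : z ∈ Mer ε) (hz' : z' ∈ Mer ε) (hτ : ‖τ‖ < ε) :
    mfun ε (z + z') =ᶠ[𝓝[≠] τ] mfun ε z + mfun ε z' := by
  obtain ⟨p, q, h⟩ := hz
  obtain ⟨p', q', h'⟩ := hz'
  filter_upwards [mfun_eventuallyEq hε (h.add h') hτ, mfun_eventuallyEq hε h hτ,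
    mfun_eventuallyEq hε h' hτ, eventually_norm_lt hτ, h.2.1.eventually_ne_zero hε h.2.2.1 hτ,
    h'.2.1.eventually_ne_zero hε h'.2.2.1 hτ] with σ e1 e2 e3 hσ h1 h2
  rw [Pi.add_apply, e1, e2, e3]
  unfold quotFn
  rw [fn_add (h.1.mul h'.2.1) (h'.1.mul h.2.1) hσ, fn_mul h.1 h'.2.1 hσ, fn_mul h'.1 h.2.1 hσ,
    fn_mul h.2.1 h'.2.1 hσ]
  field_simp

theorem mfun_mul (hε : 0 < ε) (hz : z ∈ Mer ε) (hz' : z' ∈ Mer ε) (hτ : ‖τ‖ < ε) :
    mfun ε (z * z') =ᶠ[𝓝[≠] τ] mfun ε z * mfun ε z' := by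
  obtain ⟨p, q, h⟩ := hz
  obtain ⟨p', q', h'⟩ := hz'
  filter_upwards [mfun_eventuallyEq hε (h.mul h') hτ, mfun_eventuallyEq hε h hτ,
    mfun_eventuallyEq hε h' hτ, eventually_norm_lt hτ, h.2.1.eventually_ne_zero hε h.2.2.1 hτ,
    h'.2.1.eventually_ne_zero hε h'.2.2.1 hτ] with σ e1 e2 e3 hσ h1 h2
  rw [Pi.mul_apply, e1, e2, e3]
  unfold quotFn
  rw [fn_mul h.1 h'.1 hσ, fn_mul h.2.1 h'.2.1 hσ]
  field_simp

theorem mfun_neg (hε : 0 < ε) (hz : z ∈ Mer ε) (hτ : ‖τ‖ < ε) :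
    mfun ε (-z) =ᶠ[𝓝[≠] τ] -mfun ε z := by
  obtain ⟨p, q, h⟩ := hz
  filter_upwards [mfun_eventuallyEq hε h.neg hτ, mfun_eventuallyEq hε h hτ] with σ e1 e2
  rw [Pi.neg_apply, e1, e2]
  unfold quotFn
  rw [fn_neg, neg_div]

/-- For a convergent power series the attached function is the sum of the series. -/
theorem mfun_L (hε : 0 < ε) (hp : Conv ε p) (hτ : ‖τ‖ < ε) : mfun ε (L p) =ᶠ[𝓝 τ] fn p := by
  rw [← (mfun_meromorphicNFAt ε (L p) hτ).eventuallyEq_nhdsNE_iff_eventuallyEq_nhds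
    (hp.analyticAt hτ).meromorphicNFAt]
  filter_upwards [mfun_eventuallyEq hε (isRep_L hp) hτ] with σ e1
  rw [e1]
  unfold quotFn
  rw [fn_one, div_one]

theorem mfun_L_apply (hε : 0 < ε) (hp : Conv ε p) (hτ : ‖τ‖ < ε) : mfun ε (L p) τ = fn p τ :=
  (mfun_L hε hp hτ).eq_of_nhds

theorem mfun_C_apply (hε : 0 < ε) (c : ℂ) (hτ : ‖τ‖ < ε) : mfun ε (L (C c)) τ = c := by
  rw [mfun_L_apply hε (conv_C ε c) hτ, fn_C]

theorem mfun_X_apply (hε : 0 < ε) (hτ : ‖τ‖ < ε) : mfun ε (L X) τ = τ := by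
  rw [mfun_L_apply hε (conv_X ε) hτ, fn_X]

/-- The order at `τ` of a Laurent series in `Mer ε`. -/
def wAt (ε : ℝ) (τ : ℂ) (z : LaurentSeries ℂ) : ℤ := (meromorphicOrderAt (mfun ε z) τ).untopD 0

theorem meromorphicOrderAt_quotFn (hε : 0 < ε) (h : IsRep ε z p q) (hz : z ≠ 0) (hτ : ‖τ‖ < ε) :
    meromorphicOrderAt (quotFn p q) τ =
      (((analyticOrderNatAt (fn p) τ : ℤ) - (analyticOrderNatAt (fn q) τ : ℤ) : ℤ) : WithTop ℤ) := by
  have hp := h.1.analyticAt hτ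
  have hq := h.2.1.analyticAt hτ
  have e1 : meromorphicOrderAt (fn p) τ = ((analyticOrderNatAt (fn p) τ : ℤ) : WithTop ℤ) := by
    rw [hp.meromorphicOrderAt_eq,
      ← Nat.cast_analyticOrderNatAt (h.1.analyticOrderAt_ne_top hε (h.num_ne_zero hz) hτ)]
    rfl
  have e2 : meromorphicOrderAt (fn q) τ = ((analyticOrderNatAt (fn q) τ : ℤ) : WithTop ℤ) := by
    rw [hq.meromorphicOrderAt_eq,
      ← Nat.cast_analyticOrderNatAt (h.2.1.analyticOrderAt_ne_top hε h.2.2.1 hτ)]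
    rfl
  have e3 : quotFn p q = fn p / fn q := rfl
  rw [e3, meromorphicOrderAt_div hp.meromorphicAt hq.meromorphicAt, e1, e2]
  rfl

theorem meromorphicOrderAt_mfun (hε : 0 < ε) (h : IsRep ε z p q) (hz : z ≠ 0) (hτ : ‖τ‖ < ε) :
    meromorphicOrderAt (mfun ε z) τ =
      (((analyticOrderNatAt (fn p) τ : ℤ) - (analyticOrderNatAt (fn q) τ : ℤ) : ℤ) : WithTop ℤ) := by
  rw [meromorphicOrderAt_congr (mfun_eventuallyEq hε h hτ), meromorphicOrderAt_quotFn hε h hz hτ]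

theorem wAt_eq (hε : 0 < ε) (h : IsRep ε z p q) (hz : z ≠ 0) (hτ : ‖τ‖ < ε) :
    wAt ε τ z = (analyticOrderNatAt (fn p) τ : ℤ) - (analyticOrderNatAt (fn q) τ : ℤ) := by
  unfold wAt
  rw [meromorphicOrderAt_mfun hε h hz hτ]
  rfl

theorem meromorphicOrderAt_mfun_eq_wAt (hε : 0 < ε) (hz : z ∈ Mer ε) (hz0 : z ≠ 0)
    (hτ : ‖τ‖ < ε) : meromorphicOrderAt (mfun ε z) τ = ((wAt ε τ z : ℤ) : WithTop ℤ) := by
  obtain ⟨p, q, h⟩ := hz
  rw [meromorphicOrderAt_mfun hε h hz0 hτ, wAt_eq hε h hz0 hτ]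

theorem wAt_mul (hε : 0 < ε) (hz : z ∈ Mer ε) (hz' : z' ∈ Mer ε) (hz0 : z ≠ 0) (hz0' : z' ≠ 0)
    (hτ : ‖τ‖ < ε) : wAt ε τ (z * z') = wAt ε τ z + wAt ε τ z' := by
  have h1 := meromorphicOrderAt_mfun_eq_wAt hε ((Mer ε).mul_mem hz hz') (mul_ne_zero hz0 hz0') hτ
  rw [meromorphicOrderAt_congr (mfun_mul hε hz hz' hτ),
    meromorphicOrderAt_mul (mfun_meromorphicAt ε z hτ) (mfun_meromorphicAt ε z' hτ),
    meromorphicOrderAt_mfun_eq_wAt hε hz hz0 hτ, meromorphicOrderAt_mfun_eq_wAt hε hz' hz0' hτ,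
    ← WithTop.coe_add] at h1
  exact (WithTop.coe_injective h1).symm

theorem wAt_add (hε : 0 < ε) (hz : z ∈ Mer ε) (hz' : z' ∈ Mer ε) (hz0 : z ≠ 0) (hz0' : z' ≠ 0)
    (hzz : z + z' ≠ 0) (hτ : ‖τ‖ < ε) : min (wAt ε τ z) (wAt ε τ z') ≤ wAt ε τ (z + z') := by
  have h1 := meromorphicOrderAt_mfun_eq_wAt hε ((Mer ε).add_mem hz hz') hzz hτ
  have h2 := meromorphicOrderAt_add (mfun_meromorphicAt ε z hτ) (mfun_meromorphicAt ε z' hτ)
  rw [← meromorphicOrderAt_congr (mfun_add hε hz hz' hτ), h1,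
    meromorphicOrderAt_mfun_eq_wAt hε hz hz0 hτ, meromorphicOrderAt_mfun_eq_wAt hε hz' hz0' hτ,
    ← WithTop.coe_min] at h2
  exact WithTop.coe_le_coe.mp h2

theorem wAt_L_C (hε : 0 < ε) {c : ℂ} (hc : c ≠ 0) (hτ : ‖τ‖ < ε) : wAt ε τ (L (C c)) = 0 := by
  have hC0 : (C c : PowerSeries ℂ) ≠ 0 := by
    intro h
    apply hc
    have := congrArg (fun r => fn r 0) h
    simpa [fn_C, fn_zero] using this
  rw [wAt_eq hε (isRep_L (conv_C ε c)) (L_ne_zero hC0) hτ]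
  have h1 : analyticOrderNatAt (fn (C c)) τ = 0 := by
    unfold analyticOrderNatAt
    rw [analyticOrderAt_eq_zero.mpr (Or.inr (by rw [fn_C]; exact hc))]
    rfl
  have h2 : analyticOrderNatAt (fn 1) τ = 0 := by
    unfold analyticOrderNatAt
    rw [analyticOrderAt_eq_zero.mpr (Or.inr (by rw [fn_one]; exact one_ne_zero))]
    rfl
  rw [h1, h2]
  simp

/-- `X - τ` has order one at `τ`. -/
theorem wAt_X_sub_C (hε : 0 < ε) (hτ : ‖τ‖ < ε) : wAt ε τ (L (X - C τ)) = 1 := by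
  have hconv : Conv ε (X - C τ) := by
    rw [sub_eq_add_neg]
    exact (conv_X ε).add (conv_C ε τ).neg
  have hfn : ∀ σ : ℂ, ‖σ‖ < ε → fn (X - C τ) σ = σ - τ := by
    intro σ hσ
    rw [sub_eq_add_neg, fn_add (conv_X ε) (conv_C ε τ).neg hσ, fn_neg, fn_X, fn_C]
    ring
  have hne : (X - C τ : PowerSeries ℂ) ≠ 0 := by
    intro h
    have h1 := congrArg (coeff 1) h
    simp [coeff_X] at h1
  rw [wAt_eq hε (isRep_L hconv) (L_ne_zero hne) hτ]
  have h2 : analyticOrderNatAt (fn 1) τ = 0 := by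
    unfold analyticOrderNatAt
    rw [analyticOrderAt_eq_zero.mpr (Or.inr (by rw [fn_one]; exact one_ne_zero))]
    rfl
  have hev : fn (X - C τ) =ᶠ[𝓝 τ] fun σ => σ - τ := by
    filter_upwards [isOpen_ball.mem_nhds (mem_ball_zero_iff.mpr hτ)] with σ hσ
    exact hfn σ (mem_ball_zero_iff.mp hσ)
  have h1 : analyticOrderNatAt (fn (X - C τ)) τ = 1 := by
    unfold analyticOrderNatAt
    rw [analyticOrderAt_congr hev]
    have := analyticOrderAt_centeredMonomial (𝕜 := ℂ) (z₀ := τ) (n := 1)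
    have he : ((fun x : ℂ => x - τ) ^ 1) = fun σ : ℂ => σ - τ := by
      funext σ
      simp
    rw [he] at this
    rw [this]
    rfl
  rw [h1, h2]
  simp

/-- The order of the Laurent series attached to a nonzero power series. -/
theorem order_L (hp : p ≠ 0) : (L p).order = (p.order.toNat : ℤ) := by
  have hLp : L p ≠ 0 := L_ne_zero hp
  apply le_antisymm
  · apply HahnSeries.order_le_of_coeff_ne_zero
    have : (L p).coeff ((p.order.toNat : ℕ) : ℤ) = coeff p.order.toNat p :=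
      HahnSeries.ofPowerSeries_apply_coeff p _
    rw [this]
    exact coeff_order hp
  · have h1 : (L p).coeff (L p).order ≠ 0 := fun h => hLp (HahnSeries.coeff_order_eq_zero.mp h)
    have h2 : (L p).coeff (L p).order =
        if (L p).order < 0 then 0 else coeff (L p).order.natAbs p := PowerSeries.coeff_coe (f := p) _
    rw [h2] at h1
    split_ifs at h1 with hneg
    · exact absurd rfl h1
    · have h3 : p.order ≤ ((L p).order.natAbs : ℕ∞) := order_le _ h1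
      have h4 : p.order.toNat ≤ (L p).order.natAbs := by
        have h5 : (p.order.toNat : ℕ∞) = p.order :=
          ENat.natCast_toNat (by rwa [ne_eq, order_eq_top])
        rw [← h5] at h3
        exact_mod_cast h3
      have h6 : ((L p).order.natAbs : ℤ) = (L p).order := Int.natAbs_of_nonneg (not_lt.mp hneg)
      omega

/-- At the centre of the disc the analytic order is the order of the Laurent series. -/
theorem wAt_zero (hε : 0 < ε) (hz : z ∈ Mer ε) (hz0 : z ≠ 0) : wAt ε 0 z = z.order := by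
  obtain ⟨p, q, h⟩ := hz
  have h0 : ‖(0 : ℂ)‖ < ε := by simpa using hε
  have hp0 := h.num_ne_zero hz0
  rw [wAt_eq hε h hz0 h0]
  have e1 : analyticOrderNatAt (fn p) 0 = p.order.toNat := by
    unfold analyticOrderNatAt
    rw [h.1.analyticOrderAt_zero hε]
  have e2 : analyticOrderNatAt (fn q) 0 = q.order.toNat := by
    unfold analyticOrderNatAt
    rw [h.2.1.analyticOrderAt_zero hε]
  rw [e1, e2, ← order_L hp0, ← order_L h.2.2.1, ← h.2.2.2,
    HahnSeries.order_mul hz0 (L_ne_zero h.2.2.1)]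
  ring

end

end Fermat.Agent.S27.H2186.Chart6746
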