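import Mathlib
import Fermat.Prelude.Def_AlgebraicCurve_DivisorClassGroup

/-!
# S27 (helper6746), chart package, part 3: a place from a normalised discrete valuation

`ValData K F w`: `w : F → ℤ` is additive on products of nonzero elements, satisfies the
ultrametric inequality, vanishes on nonzero constants and takes the value `1`.
`ValData.place` is the corresponding `Place K F`, and `ValData.ord_place : v.ord f = w f`.
Mathlib + Prelude only.
-/

set_option autoImplicit false

namespace Fermat.Agent.S27.H2186.Chart6746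

open AlgebraicCurve

variable {K F : Type*} [Field K] [Field F] [Algebra K F]

/-- A normalised discrete valuation on `F`, trivial on `K`, written additively with values in
`ℤ` (the value at `0` is irrelevant). -/
structure ValData (K : Type*) {F : Type*} [Field K] [Field F] [Algebra K F] (w : F → ℤ) :
    Prop where
  mul : ∀ f g : F, f ≠ 0 → g ≠ 0 → w (f * g) = w f + w g
  add : ∀ f g : F, f ≠ 0 → g ≠ 0 → f + g ≠ 0 → min (w f) (w g) ≤ w (f + g)
  const : ∀ c : K, c ≠ 0 → w (algebraMap K F c) = 0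
  unif : ∃ π : F, π ≠ 0 ∧ w π = 1

namespace ValData

variable {w : F → ℤ} (h : ValData K w)

include h

theorem map_one : w 1 = 0 := by
  have := h.mul 1 1 one_ne_zero one_ne_zero
  rw [mul_one] at this
  omega

theorem map_inv {f : F} (hf : f ≠ 0) : w f⁻¹ = -w f := by
  have := h.mul f f⁻¹ hf (inv_ne_zero hf)
  rw [mul_inv_cancel₀ hf, h.map_one] at this
  omega

theorem map_neg_one : w (-1) = 0 := by
  have := h.mul (-1) (-1) (neg_ne_zero.mpr one_ne_zero) (neg_ne_zero.mpr one_ne_zero)
  rw [neg_mul_neg, mul_one, h.map_one] at this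
  omega

theorem map_neg {f : F} (hf : f ≠ 0) : w (-f) = w f := by
  have := h.mul (-1) f (neg_ne_zero.mpr one_ne_zero) hf
  rw [neg_one_mul, h.map_neg_one] at this
  omega

theorem map_div {f g : F} (hf : f ≠ 0) (hg : g ≠ 0) : w (f / g) = w f - w g := by
  rw [div_eq_mul_inv, h.mul f g⁻¹ hf (inv_ne_zero hg), h.map_inv hg]
  ring

theorem map_pow {f : F} (hf : f ≠ 0) (n : ℕ) : w (f ^ n) = n * w f := by
  induction n with
  | zero => simp [h.map_one]
  | succ n ih =>
    rw [pow_succ, h.mul _ _ (pow_ne_zero n hf) hf, ih]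
    push_cast
    ring

theorem map_zpow {f : F} (hf : f ≠ 0) (n : ℤ) : w (f ^ n) = n * w f := by
  obtain ⟨m, rfl | rfl⟩ := Int.eq_nat_or_neg n
  · rw [zpow_natCast, h.map_pow hf]
  · rw [zpow_neg, zpow_natCast, h.map_inv (pow_ne_zero m hf), h.map_pow hf]
    ring

/-- The valuation subring `{f | f = 0 ∨ 0 ≤ w f}`. -/
def valSubring : ValuationSubring F where
  carrier := {f | f = 0 ∨ 0 ≤ w f}
  mul_mem' := by
    rintro a b (rfl | ha) (rfl | hb)
    · left; simp
    · left; simp
    · left; simp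
    · by_cases ha0 : a = 0
      · left; simp [ha0]
      by_cases hb0 : b = 0
      · left; simp [hb0]
      right
      rw [h.mul a b ha0 hb0]
      omega
  one_mem' := Or.inr (by rw [h.map_one])
  add_mem' := by
    rintro a b ha hb
    by_cases ha0 : a = 0
    · simpa [ha0] using hb
    by_cases hb0 : b = 0
    · simpa [hb0] using ha
    by_cases hab : a + b = 0
    · left; exact hab
    right
    have ha' : 0 ≤ w a := ha.resolve_left ha0
    have hb' : 0 ≤ w b := hb.resolve_left hb0
    exact (le_min ha' hb').trans (h.add a b ha0 hb0 hab)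
  zero_mem' := Or.inl rfl
  neg_mem' := by
    rintro a (rfl | ha)
    · left; simp
    · by_cases ha0 : a = 0
      · left; simp [ha0]
      right
      rw [h.map_neg ha0]
      exact ha
  mem_or_inv_mem' := by
    intro a
    by_cases ha0 : a = 0
    · left; left; exact ha0
    rcases le_total 0 (w a) with h1 | h1
    · left; right; exact h1
    · right; right
      rw [h.map_inv ha0]
      omega

theorem mem_valSubring {f : F} : f ∈ h.valSubring ↔ f = 0 ∨ 0 ≤ w f := Iff.rfl

theorem mem_valSubring_of_ne {f : F} (hf : f ≠ 0) : f ∈ h.valSubring ↔ 0 ≤ w f :=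
  ⟨fun hm => hm.resolve_left hf, Or.inr⟩

theorem isUnit_of_eq_zero {x : h.valSubring} (hx0 : x ≠ 0) (hx : w (x : F) = 0) : IsUnit x := by
  have hxF : (x : F) ≠ 0 := fun hc => hx0 (Subtype.ext hc)
  have hinv : (x : F)⁻¹ ∈ h.valSubring := Or.inr (by rw [h.map_inv hxF, hx]; rfl)
  exact IsUnit.of_mul_eq_one (⟨(x : F)⁻¹, hinv⟩ : h.valSubring)
    (Subtype.ext (mul_inv_cancel₀ hxF))

theorem eq_zero_of_isUnit {x : h.valSubring} (hx : IsUnit x) : w (x : F) = 0 := by
  obtain ⟨y, hy⟩ := hx.exists_right_inv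
  have hxy : (x : F) * (y : F) = 1 := congrArg Subtype.val hy
  have hxF : (x : F) ≠ 0 := left_ne_zero_of_mul_eq_one hxy
  have hyF : (y : F) ≠ 0 := right_ne_zero_of_mul_eq_one hxy
  have h1 := h.mul _ _ hxF hyF
  rw [hxy, h.map_one] at h1
  have h2 : 0 ≤ w (x : F) := x.2.resolve_left hxF
  have h3 : 0 ≤ w (y : F) := y.2.resolve_left hyF
  omega

theorem isPrincipalIdealRing_valSubring : IsPrincipalIdealRing h.valSubring := by
  classical
  refine ⟨fun I => ?_⟩
  by_cases hI : I = ⊥
  · rw [hI]
    exact bot_isPrincipal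
  obtain ⟨x1, hx1I, hx10⟩ := Submodule.exists_mem_ne_zero_of_ne_bot hI
  have hex : ∃ n : ℕ, ∃ x ∈ I, x ≠ 0 ∧ w (x : F) = n := by
    have hx1F : (x1 : F) ≠ 0 := fun hc => hx10 (Subtype.ext hc)
    refine ⟨(w (x1 : F)).toNat, x1, hx1I, hx10, ?_⟩
    rw [Int.toNat_of_nonneg (x1.2.resolve_left hx1F)]
  obtain ⟨x0, hx0I, hx00, hx0w⟩ := Nat.find_spec hex
  have hx0F : (x0 : F) ≠ 0 := fun hc => hx00 (Subtype.ext hc)
  refine ⟨x0, le_antisymm (fun y hy => ?_) ?_⟩
  · rw [Submodule.mem_span_singleton]
    by_cases hy0 : y = 0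
    · exact ⟨0, by simp [hy0]⟩
    have hyF : (y : F) ≠ 0 := fun hc => hy0 (Subtype.ext hc)
    have hyw : 0 ≤ w (y : F) := y.2.resolve_left hyF
    have hmin : Nat.find hex ≤ (w (y : F)).toNat :=
      Nat.find_min' hex ⟨y, hy, hy0, by rw [Int.toNat_of_nonneg hyw]⟩
    have hle : w (x0 : F) ≤ w (y : F) := by
      rw [hx0w]
      have := Int.ofNat_le.mpr hmin
      rwa [Int.toNat_of_nonneg hyw] at this
    have hq : (y : F) / (x0 : F) ∈ h.valSubring := Or.inr (by
      rw [h.map_div hyF hx0F]
      omega)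
    refine ⟨⟨(y : F) / (x0 : F), hq⟩, Subtype.ext ?_⟩
    show (y : F) / (x0 : F) * (x0 : F) = (y : F)
    rw [div_mul_cancel₀ _ hx0F]
  · rw [Submodule.span_singleton_le_iff_mem]
    exact hx0I

/-- The place attached to a normalised discrete valuation. -/
def place : Place K F where
  toValuationSubring := h.valSubring
  algebraMap_mem' := fun c => by
    by_cases hc : c = 0
    · left; simp [hc]
    · right; rw [h.const c hc]
  ne_top' := by
    obtain ⟨π, hπ0, hπ1⟩ := h.unif
    intro htop
    have hmem : π⁻¹ ∈ h.valSubring := by rw [htop]; exact ValuationSubring.mem_top _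
    have := hmem.resolve_left (inv_ne_zero hπ0)
    rw [h.map_inv hπ0, hπ1] at this
    omega
  isPrincipalIdealRing' := h.isPrincipalIdealRing_valSubring

@[simp] theorem place_toValuationSubring : h.place.toValuationSubring = h.valSubring := rfl

theorem irreducible_of_eq_one {ϖ : h.valSubring} (hϖ0 : (ϖ : F) ≠ 0) (hϖ : w (ϖ : F) = 1) :
    Irreducible ϖ := by
  rw [irreducible_iff]
  refine ⟨fun hu => ?_, fun a b hab => ?_⟩
  · have := h.eq_zero_of_isUnit hu
    omega
  · have habF : (ϖ : F) = (a : F) * (b : F) := congrArg Subtype.val hab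
    have haF : (a : F) ≠ 0 := fun hc => hϖ0 (by rw [habF, hc, zero_mul])
    have hbF : (b : F) ≠ 0 := fun hc => hϖ0 (by rw [habF, hc, mul_zero])
    have h1 := h.mul _ _ haF hbF
    rw [← habF, hϖ] at h1
    have h2 : 0 ≤ w (a : F) := a.2.resolve_left haF
    have h3 : 0 ≤ w (b : F) := b.2.resolve_left hbF
    have ha0 : a ≠ 0 := fun hc => haF (by rw [hc]; rfl)
    have hb0 : b ≠ 0 := fun hc => hbF (by rw [hc]; rfl)
    rcases (show w (a : F) = 0 ∨ w (b : F) = 0 by omega) with h4 | h4
    · exact Or.inl (h.isUnit_of_eq_zero ha0 h4)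
    · exact Or.inr (h.isUnit_of_eq_zero hb0 h4)

/-- The order function of the place attached to `w` is `w`. -/
theorem ord_place {f : F} (hf : f ≠ 0) : h.place.ord f = w f := by
  obtain ⟨π, hπ0, hπ1⟩ := h.unif
  have hπmem : π ∈ h.valSubring := Or.inr (by rw [hπ1]; exact zero_le_one)
  have hirr : Irreducible (⟨π, hπmem⟩ : h.place.toValuationSubring) :=
    h.irreducible_of_eq_one (ϖ := ⟨π, hπmem⟩) hπ0 hπ1
  obtain ⟨u, hu⟩ := h.place.exists_unit_mul_zpow hf hirr
  have huw : w ((u : h.place.toValuationSubring) : F) = 0 :=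
    h.eq_zero_of_isUnit (x := (u : h.place.toValuationSubring)) u.isUnit
  have huF : ((u : h.place.toValuationSubring) : F) ≠ 0 := by
    intro hc
    rw [hc, zero_mul] at hu
    exact hf hu
  have h1 : w f = w (((u : h.place.toValuationSubring) : F) * π ^ (h.place.ord f)) :=
    congrArg w hu
  rw [h.mul _ _ huF (zpow_ne_zero _ hπ0), huw, h.map_zpow hπ0, hπ1] at h1
  omega

/-- Membership in the valuation ring of the attached place. -/
theorem mem_place_iff {f : F} (hf : f ≠ 0) : f ∈ h.place.toValuationSubring ↔ 0 ≤ w f :=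
  h.mem_valSubring_of_ne hf

end ValData

end Fermat.Agent.S27.H2186.Chart6746
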