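import Fermat.Agent.S24.A564.RHAssembly
import Fermat.Agent.S27.H2186.TAdic6326
import Fermat.Agent.S27.H2186.AlgConv
import Fermat.Agent.S27.H2186.Chart6746.Mero
import Fermat.Agent.S27.H2186.Chart6746.ValPlace

/-!
# S27 (helper6746), chart package, part 4: the analytic chart at a place (B3)

`F/ℂ` a function field in one variable, `P` a place, `t` a uniformizer at `P`.
`exists_isChart` produces `ε > 0`, `κ : ℂ → Place ℂ F` and `m : F → ℂ → ℂ` such that
`κ 0 = P`, every `m f` is meromorphic in normal form on the disc `‖τ‖ < ε`, the order of `m f`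
at `τ` is `(κ τ).ord f`, `m t τ = τ`, and `m` is additive and multiplicative up to punctured
neighbourhoods (`IsChart`).  Consequences: `m f τ` is the residue of `f` at `κ τ`,
`t - τ` is a uniformizer at `κ τ`, `κ` is injective on the disc.

Inputs: the `t`-adic expansion (helper6326, `TAdic6326`), convergence of algebraic power series
(helper8196, `AlgConv`), the landed S24 function-field library (`A564`).
-/

set_option autoImplicit false

namespace Fermat.Agent.S27.H2186.Chart6746

open AlgebraicCurve Metric Set Filter Topology IntermediateField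

noncomputable section

/-! ### Algebraic Laurent series are meromorphic on a disc -/

theorem algebraMap_poly_powerSeries :
    (algebraMap (Polynomial ℂ) (PowerSeries ℂ)) =
      (Polynomial.coeToPowerSeries.ringHom : Polynomial ℂ →+* PowerSeries ℂ) := by
  refine RingHom.ext fun p => ?_
  rw [PowerSeries.algebraMap_apply', Algebra.algebraMap_self, PowerSeries.map_id]
  rfl

theorem algebraMap_poly_laurent_C (c : ℂ) :
    algebraMap (Polynomial ℂ) (LaurentSeries ℂ) (Polynomial.C c) = L (PowerSeries.C c) := by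
  show L (algebraMap (Polynomial ℂ) (PowerSeries ℂ) (Polynomial.C c)) = _
  rw [algebraMap_poly_powerSeries]
  show L ((Polynomial.C c : Polynomial ℂ) : PowerSeries ℂ) = _
  rw [Polynomial.coe_C]

theorem algebraMap_poly_laurent_X :
    algebraMap (Polynomial ℂ) (LaurentSeries ℂ) Polynomial.X = L PowerSeries.X := by
  show L (algebraMap (Polynomial ℂ) (PowerSeries ℂ) Polynomial.X) = _
  rw [algebraMap_poly_powerSeries]
  show L ((Polynomial.X : Polynomial ℂ) : PowerSeries ℂ) = _
  rw [Polynomial.coe_X]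

theorem single_eq_zpow (n : ℤ) :
    (HahnSeries.single n (1 : ℂ) : LaurentSeries ℂ) = L PowerSeries.X ^ n := by
  rw [RatFunc.single_zpow (F := ℂ) n]
  congr 1
  exact HahnSeries.ofPowerSeries_X.symm

theorem isAlgebraic_single (n : ℤ) :
    IsAlgebraic (Polynomial ℂ) (HahnSeries.single n (1 : ℂ) : LaurentSeries ℂ) := by
  have hX : IsAlgebraic (Polynomial ℂ) (L PowerSeries.X) := by
    rw [← algebraMap_poly_laurent_X]
    exact isAlgebraic_algebraMap _
  rw [single_eq_zpow]
  obtain ⟨m, rfl | rfl⟩ := Int.eq_nat_or_neg n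
  · rw [zpow_natCast]
    exact hX.pow m
  · rw [zpow_neg, zpow_natCast]
    exact (hX.pow m).inv

/-- A Laurent series algebraic over `ℂ[X]` lies in `Mer ε` for some `ε > 0`. -/
theorem exists_mem_Mer_of_isAlgebraic (z : LaurentSeries ℂ)
    (hz : IsAlgebraic (Polynomial ℂ) z) : ∃ ε : ℝ, 0 < ε ∧ z ∈ Mer ε := by
  have hu : IsAlgebraic (Polynomial ℂ) (L z.powerSeriesPart) := by
    rw [LaurentSeries.ofPowerSeries_powerSeriesPart]
    exact (isAlgebraic_single _).mul hz
  have hu' : IsAlgebraic (Polynomial ℂ) z.powerSeriesPart :=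
    IsAlgebraic.of_ringHom_of_comp_eq (RingHom.id (Polynomial ℂ)) L hu
      Function.surjective_id L_injective rfl
  obtain ⟨C, R, -, hR, hb⟩ := AlgConv.exists_geom_bound_of_isAlgebraic z.powerSeriesPart hu'
  refine ⟨R⁻¹, inv_pos.mpr hR, ?_⟩
  rw [← LaurentSeries.single_order_mul_powerSeriesPart z, single_eq_zpow]
  exact (Mer R⁻¹).mul_mem ((Mer R⁻¹).zpow_mem (L_mem_Mer (conv_X _)) _)
    (L_mem_Mer (conv_of_geom_bound hR hb))

/-! ### The `t`-adic expansion and its convergence -/

variable {F : Type*} [Field F] [Algebra ℂ F]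

section expansion

variable (P : Place ℂ F) (hres : Function.Surjective (algebraMap ℂ P.ResidueField))
  {t : F} (ht : P.ord t = 1)

/-- The `t`-adic expansion at `P` (helper6326's `laurent`). -/
def iota : F →+* LaurentSeries ℂ :=
  TAdic6326.laurent P hres (TAdic6326.irreducible_of_ord_eq_one P ht)

theorem iota_t : iota P hres ht t = L PowerSeries.X := by
  have h := TAdic6326.laurent_uniformizer P hres (TAdic6326.irreducible_of_ord_eq_one P ht)
  rw [HahnSeries.ofPowerSeries_X]
  exact h

theorem iota_algebraMap (c : ℂ) : iota P hres ht (algebraMap ℂ F c) = L (PowerSeries.C c) := by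
  rw [HahnSeries.ofPowerSeries_C]
  exact TAdic6326.laurent_algebraMap P hres _ c

theorem iota_injective : Function.Injective (iota P hres ht) := (iota P hres ht).injective

theorem iota_ne_zero {f : F} (hf : f ≠ 0) : iota P hres ht f ≠ 0 :=
  fun h => hf (iota_injective P hres ht (by rw [h, map_zero]))

theorem order_iota {f : F} (hf : f ≠ 0) : (iota P hres ht f).order = P.ord f :=
  TAdic6326.order_laurent P hres _ hf

theorem iota_aeval (p : Polynomial ℂ) :
    iota P hres ht (Polynomial.aeval t p) = algebraMap (Polynomial ℂ) (LaurentSeries ℂ) p := by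
  have h : (iota P hres ht).comp (Polynomial.aeval t : Polynomial ℂ →ₐ[ℂ] F).toRingHom =
      algebraMap (Polynomial ℂ) (LaurentSeries ℂ) := by
    refine Polynomial.ringHom_ext (fun c => ?_) ?_
    · rw [algebraMap_poly_laurent_C, ← iota_algebraMap P hres ht c]
      simp
    · rw [algebraMap_poly_laurent_X, ← iota_t P hres ht]
      simp
  exact congrArg (fun φ : Polynomial ℂ →+* LaurentSeries ℂ => φ p) h

/-- The expansion of an element algebraic over `ℂ(t)` is algebraic over `ℂ[X]`. -/
theorem isAlgebraic_iota [halg : Algebra.IsAlgebraic ℂ⟮t⟯ F] (f : F) :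
    IsAlgebraic (Polynomial ℂ) (iota P hres ht f) := by
  have h1 : IsAlgebraic ℂ⟮t⟯ f := Algebra.IsAlgebraic.isAlgebraic f
  have h2 : IsAlgebraic (Algebra.adjoin ℂ {t}) f := isAlgebraic_adjoin_iff.mp h1
  let algF : Algebra (Polynomial ℂ) F := (Polynomial.aeval t : Polynomial ℂ →ₐ[ℂ] F).toRingHom.toAlgebra
  have hmem : ∀ p : Polynomial ℂ, Polynomial.aeval t p ∈ Algebra.adjoin ℂ {t} := fun p => by
    rw [Algebra.adjoin_singleton_eq_range_aeval]
    exact ⟨p, rfl⟩
  let φ : Polynomial ℂ →ₐ[ℂ] Algebra.adjoin ℂ {t} :=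
    (Polynomial.aeval t : Polynomial ℂ →ₐ[ℂ] F).codRestrict (Algebra.adjoin ℂ {t}) hmem
  have hφ : Function.Surjective φ := by
    rintro ⟨y, hy⟩
    rw [Algebra.adjoin_singleton_eq_range_aeval] at hy
    obtain ⟨p, rfl⟩ := hy
    exact ⟨p, rfl⟩
  have h3 : IsAlgebraic (Polynomial ℂ) f :=
    IsAlgebraic.of_ringHom_of_comp_eq (φ : Polynomial ℂ →+* Algebra.adjoin ℂ {t}) (RingHom.id F) h2
      hφ Function.injective_id rfl
  let ιa : F →ₐ[Polynomial ℂ] LaurentSeries ℂ :=
    { iota P hres ht with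
      commutes' := fun p => iota_aeval P hres ht p }
  exact h3.algHom ιa

/-- All expansions lie in `Mer ε` for one `ε > 0`. -/
theorem exists_forall_iota_mem_Mer [Algebra.EssFiniteType ℂ F] [Algebra.IsAlgebraic ℂ⟮t⟯ F] :
    ∃ ε : ℝ, 0 < ε ∧ ∀ f : F, iota P hres ht f ∈ Mer ε := by
  classical
  obtain ⟨S, hS⟩ := IntermediateField.fg_top ℂ F
  have key : ∀ T : Finset F, ∃ ε : ℝ, 0 < ε ∧ ∀ s ∈ T, iota P hres ht s ∈ Mer ε := by
    intro T
    induction T using Finset.induction_on with
    | empty => exact ⟨1, one_pos, fun s hs => absurd hs (Finset.notMem_empty s)⟩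
    | insert a T _ ih =>
      obtain ⟨ε1, hε1, h1⟩ := ih
      obtain ⟨ε2, hε2, h2⟩ := exists_mem_Mer_of_isAlgebraic _ (isAlgebraic_iota P hres ht a)
      refine ⟨min ε1 ε2, lt_min hε1 hε2, fun s hs => ?_⟩
      rcases Finset.mem_insert.mp hs with rfl | hs
      · exact Mer_mono (min_le_right _ _) h2
      · exact Mer_mono (min_le_left _ _) (h1 s hs)
  obtain ⟨ε, hε, hSε⟩ := key S
  refine ⟨ε, hε, ?_⟩
  let M : IntermediateField ℂ F := Subfield.toIntermediateField ((Mer ε).comap (iota P hres ht))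
    (fun c => by
      show iota P hres ht (algebraMap ℂ F c) ∈ Mer ε
      rw [iota_algebraMap]
      exact L_mem_Mer (conv_C _ _))
  have hle : IntermediateField.adjoin ℂ (S : Set F) ≤ M :=
    IntermediateField.adjoin_le_iff.mpr fun s hs => hSε s hs
  rw [hS] at hle
  exact fun f => hle (IntermediateField.mem_top)

end expansion

/-! ### Charts -/

/-- `(ε, κ, m)` is an analytic chart of the function field `F/ℂ` at the place `P` with local
coordinate `t`: `κ` maps the disc `‖τ‖ < ε` to places, `κ 0 = P`, and `m f` is the meromorphic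
function (in normal form) on the disc which reads `f` in the chart. -/
structure IsChart (P : Place ℂ F) (t : F) (ε : ℝ) (κ : ℂ → Place ℂ F) (m : F → ℂ → ℂ) :
    Prop where
  pos : 0 < ε
  center : κ 0 = P
  nf : ∀ f : F, MeromorphicNFOn (m f) (ball 0 ε)
  order : ∀ f : F, f ≠ 0 → ∀ τ : ℂ, ‖τ‖ < ε →
    meromorphicOrderAt (m f) τ = (((κ τ).ord f : ℤ) : WithTop ℤ)
  map_add : ∀ (f g : F) (τ : ℂ), ‖τ‖ < ε → m (f + g) =ᶠ[𝓝[≠] τ] m f + m g
  map_mul : ∀ (f g : F) (τ : ℂ), ‖τ‖ < ε → m (f * g) =ᶠ[𝓝[≠] τ] m f * m g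
  map_const : ∀ (c τ : ℂ), ‖τ‖ < ε → m (algebraMap ℂ F c) τ = c
  map_unif : ∀ τ : ℂ, ‖τ‖ < ε → m t τ = τ

section construction

variable (P : Place ℂ F) (hres : Function.Surjective (algebraMap ℂ P.ResidueField))
  {t : F} (ht : P.ord t = 1) {ε : ℝ} (hε : 0 < ε)
  (hM : ∀ f : F, iota P hres ht f ∈ Mer ε)

include hε hM in
theorem valData_iota {τ : ℂ} (hτ : ‖τ‖ < ε) :
    ValData ℂ (fun f : F => wAt ε τ (iota P hres ht f)) where
  mul f g hf hg := by
    show wAt ε τ (iota P hres ht (f * g)) = _
    rw [map_mul]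
    exact wAt_mul hε (hM f) (hM g) (iota_ne_zero P hres ht hf) (iota_ne_zero P hres ht hg) hτ
  add f g hf hg hfg := by
    show _ ≤ wAt ε τ (iota P hres ht (f + g))
    rw [map_add]
    exact wAt_add hε (hM f) (hM g) (iota_ne_zero P hres ht hf) (iota_ne_zero P hres ht hg)
      (by rw [← map_add]; exact iota_ne_zero P hres ht hfg) hτ
  const c hc := by
    show wAt ε τ (iota P hres ht (algebraMap ℂ F c)) = 0
    rw [iota_algebraMap]
    exact wAt_L_C hε hc hτ
  unif := by
    refine ⟨t - algebraMap ℂ F τ, ?_, ?_⟩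
    · intro h0
      have h1 : t = algebraMap ℂ F τ := sub_eq_zero.mp h0
      rw [h1, Fermat.Agent.S24.A564.SO.Place_ord_algebraMap] at ht
      exact zero_ne_one ht
    · show wAt ε τ (iota P hres ht (t - algebraMap ℂ F τ)) = 1
      rw [map_sub, iota_t, iota_algebraMap, ← map_sub]
      exact wAt_X_sub_C hε hτ

open Classical in
/-- The chart map: `τ ↦` the place of the valuation `f ↦ ord_τ (expansion of f)`. -/
def kappa (τ : ℂ) : Place ℂ F :=
  if hτ : ‖τ‖ < ε then (valData_iota P hres ht hε hM hτ).place else P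

theorem kappa_ord {τ : ℂ} (hτ : ‖τ‖ < ε) {f : F} (hf : f ≠ 0) :
    (kappa P hres ht hε hM τ).ord f = wAt ε τ (iota P hres ht f) := by
  unfold kappa
  rw [dif_pos hτ]
  exact (valData_iota P hres ht hε hM hτ).ord_place hf

theorem kappa_zero : kappa P hres ht hε hM 0 = P := by
  have h0 : ‖(0 : ℂ)‖ < ε := by simpa using hε
  apply Place.ext
  ext f
  by_cases hf : f = 0
  · subst hf
    simp
  rw [Fermat.Agent.S24.A564.SO.Place_mem_iff _ hf, Fermat.Agent.S24.A564.SO.Place_mem_iff _ hf,
    kappa_ord P hres ht hε hM h0 hf, wAt_zero hε (hM f) (iota_ne_zero P hres ht hf),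
    order_iota P hres ht hf]

theorem isChart_kappa :
    IsChart P t ε (kappa P hres ht hε hM) (fun f => mfun ε (iota P hres ht f)) where
  pos := hε
  center := kappa_zero P hres ht hε hM
  nf f := mfun_meromorphicNFOn ε _
  order f hf τ hτ := by
    rw [meromorphicOrderAt_mfun_eq_wAt hε (hM f) (iota_ne_zero P hres ht hf) hτ,
      kappa_ord P hres ht hε hM hτ hf]
  map_add f g τ hτ := by
    show mfun ε (iota P hres ht (f + g)) =ᶠ[𝓝[≠] τ] _
    rw [map_add]
    exact mfun_add hε (hM f) (hM g) hτ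
  map_mul f g τ hτ := by
    show mfun ε (iota P hres ht (f * g)) =ᶠ[𝓝[≠] τ] _
    rw [map_mul]
    exact mfun_mul hε (hM f) (hM g) hτ
  map_const c τ hτ := by
    show mfun ε (iota P hres ht (algebraMap ℂ F c)) τ = c
    rw [iota_algebraMap]
    exact mfun_C_apply hε c hτ
  map_unif τ hτ := by
    show mfun ε (iota P hres ht t) τ = τ
    rw [iota_t]
    exact mfun_X_apply hε hτ

end construction

/-- **B3: existence of analytic charts.**  Let `F/ℂ` be a function field in one variable
(`x` transcendental, `F` finite over `ℂ(x)`), `P` a place of `F` and `t` a uniformizer at `P`.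
Then there is an analytic chart at `P` with coordinate `t`. -/
theorem exists_isChart (x : F) (hx : Transcendental ℂ x) [FiniteDimensional ℂ⟮x⟯ F]
    (P : Place ℂ F) (t : F) (ht : P.ord t = 1) :
    ∃ (ε : ℝ) (κ : ℂ → Place ℂ F) (m : F → ℂ → ℂ), IsChart P t ε κ m := by
  have hres := (Fermat.Agent.S24.A564.local_facts x hx P).2
  have htt : Transcendental ℂ t :=
    Fermat.Agent.S24.A564.KR.transcendental_of_ord_ne_zero P (by rw [ht]; exact one_ne_zero)
  have : FiniteDimensional ℂ⟮t⟯ F :=
    Fermat.Agent.S24.A564.finiteDimensional_adjoin_of_transcendental x t hx htt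
  have : Algebra.EssFiniteType ℂ F := Fermat.Agent.S24.A564.essFiniteType_of_finite x
  obtain ⟨ε, hε, hM⟩ := exists_forall_iota_mem_Mer P hres ht
  exact ⟨ε, kappa P hres ht hε hM, fun f => mfun ε (iota P hres ht f),
    isChart_kappa P hres ht hε hM⟩

end

end Fermat.Agent.S27.H2186.Chart6746
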