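import Mathlib

/-!
# S27 (helper6746), chart package, part 1: convergent power series on a disc

`fn p σ = ∑' n, coeff n p * σ ^ n` and `Conv ε p` (absolute convergence on the open disc of
radius `ε`).  Ring operations, analyticity of `fn p` on the disc, identity theorem, order at `0`.
Pure Mathlib.
-/

set_option autoImplicit false

namespace Fermat.Agent.S27.H2186.Chart6746

open PowerSeries Metric Set Filter Topology Finset

noncomputable section

/-- The value at `σ` of a formal power series (junk outside the disc of convergence). -/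
def fn (p : PowerSeries ℂ) (σ : ℂ) : ℂ := ∑' n, coeff n p * σ ^ n

/-- `p` converges absolutely on the open disc of radius `ε`. -/
def Conv (ε : ℝ) (p : PowerSeries ℂ) : Prop :=
  ∀ r : ℝ, 0 ≤ r → r < ε → Summable fun n => ‖coeff n p‖ * r ^ n

variable {ε : ℝ} {p q : PowerSeries ℂ} {σ : ℂ}

theorem Conv.summable_norm (hp : Conv ε p) (hσ : ‖σ‖ < ε) :
    Summable fun n => ‖coeff n p * σ ^ n‖ := by
  have := hp ‖σ‖ (norm_nonneg _) hσ
  simpa [norm_mul, norm_pow] using this

theorem Conv.summable (hp : Conv ε p) (hσ : ‖σ‖ < ε) :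
    Summable fun n => coeff n p * σ ^ n :=
  (hp.summable_norm hσ).of_norm

theorem Conv.mono {ε' : ℝ} (hp : Conv ε p) (h : ε' ≤ ε) : Conv ε' p :=
  fun r hr hr' => hp r hr (hr'.trans_le h)

theorem conv_of_finite_support (ε : ℝ) (p : PowerSeries ℂ) (s : Finset ℕ)
    (hs : ∀ n, n ∉ s → coeff n p = 0) : Conv ε p := fun r _ _ =>
  summable_of_ne_finset_zero (s := s) fun n hn => by rw [hs n hn]; simp

theorem conv_zero (ε : ℝ) : Conv ε 0 :=
  conv_of_finite_support ε 0 ∅ fun n _ => by simp

theorem conv_C (ε : ℝ) (c : ℂ) : Conv ε (C c) :=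
  conv_of_finite_support ε _ {0} fun n hn => by
    rw [coeff_C, if_neg (by simpa using hn)]

theorem conv_one (ε : ℝ) : Conv ε 1 := by
  simpa using conv_C ε 1

theorem conv_X (ε : ℝ) : Conv ε X :=
  conv_of_finite_support ε _ {1} fun n hn => by
    rw [coeff_X, if_neg (by simpa using hn)]

theorem Conv.add (hp : Conv ε p) (hq : Conv ε q) : Conv ε (p + q) := fun r hr hrε => by
  refine Summable.of_nonneg_of_le (fun n => by positivity) (fun n => ?_)
    ((hp r hr hrε).add (hq r hr hrε))
  rw [map_add, ← add_mul]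
  exact mul_le_mul_of_nonneg_right (norm_add_le _ _) (pow_nonneg hr n)

theorem Conv.neg (hp : Conv ε p) : Conv ε (-p) := fun r hr hrε => by
  simpa using hp r hr hrε

theorem sum_antidiagonal_eq (p q : PowerSeries ℂ) (σ : ℂ) (n : ℕ) :
    ∑ kl ∈ antidiagonal n, (coeff kl.1 p * σ ^ kl.1) * (coeff kl.2 q * σ ^ kl.2) =
      coeff n (p * q) * σ ^ n := by
  rw [coeff_mul, Finset.sum_mul]
  refine Finset.sum_congr rfl fun kl hkl => ?_
  rw [← mem_antidiagonal.mp hkl, pow_add]
  ring

theorem Conv.mul (hp : Conv ε p) (hq : Conv ε q) : Conv ε (p * q) := fun r hr hrε => by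
  have hrn : ‖(r : ℂ)‖ < ε := by simpa [abs_of_nonneg hr] using hrε
  have h := summable_norm_sum_mul_antidiagonal_of_summable_norm
    (hp.summable_norm hrn) (hq.summable_norm hrn)
  refine h.congr fun n => ?_
  rw [sum_antidiagonal_eq, norm_mul, norm_pow, Complex.norm_real, Real.norm_of_nonneg hr]

theorem Conv.pow (hp : Conv ε p) (n : ℕ) : Conv ε (p ^ n) := by
  induction n with
  | zero => simpa using conv_one ε
  | succ n ih => rw [pow_succ]; exact ih.mul hp

theorem fn_add (hp : Conv ε p) (hq : Conv ε q) (hσ : ‖σ‖ < ε) :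
    fn (p + q) σ = fn p σ + fn q σ := by
  unfold fn
  rw [← (hp.summable hσ).tsum_add (hq.summable hσ)]
  refine tsum_congr fun n => ?_
  rw [map_add, add_mul]

theorem fn_neg (p : PowerSeries ℂ) (σ : ℂ) : fn (-p) σ = -fn p σ := by
  unfold fn
  rw [← tsum_neg]
  refine tsum_congr fun n => ?_
  rw [map_neg, neg_mul]

theorem fn_mul (hp : Conv ε p) (hq : Conv ε q) (hσ : ‖σ‖ < ε) :
    fn (p * q) σ = fn p σ * fn q σ := by
  unfold fn
  rw [tsum_mul_tsum_eq_tsum_sum_antidiagonal_of_summable_norm (hp.summable_norm hσ)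
    (hq.summable_norm hσ)]
  refine tsum_congr fun n => ?_
  exact (sum_antidiagonal_eq p q σ n).symm

theorem fn_C (c σ : ℂ) : fn (C c) σ = c := by
  unfold fn
  rw [tsum_eq_single 0]
  · simp
  · intro n hn
    rw [coeff_C, if_neg hn, zero_mul]

theorem fn_one (σ : ℂ) : fn 1 σ = 1 := by
  simpa using fn_C 1 σ

theorem fn_zero (σ : ℂ) : fn 0 σ = 0 := by
  simpa using fn_C 0 σ

theorem fn_X (σ : ℂ) : fn X σ = σ := by
  unfold fn
  rw [tsum_eq_single 1]
  · simp
  · intro n hn
    rw [coeff_X, if_neg hn, zero_mul]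

theorem fn_apply_zero (p : PowerSeries ℂ) : fn p 0 = constantCoeff p := by
  unfold fn
  rw [tsum_eq_single 0]
  · simp
  · intro n hn
    rw [zero_pow hn, mul_zero]

theorem fn_pow (hp : Conv ε p) (hσ : ‖σ‖ < ε) (n : ℕ) : fn (p ^ n) σ = fn p σ ^ n := by
  induction n with
  | zero => simp [fn_one]
  | succ n ih => rw [pow_succ, fn_mul (hp.pow n) hp hσ, ih, pow_succ]

theorem fn_X_pow (σ : ℂ) (n : ℕ) : fn (X ^ n) σ = σ ^ n := by
  unfold fn
  rw [tsum_eq_single n]
  · simp [coeff_X_pow]
  · intro m hm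
    rw [coeff_X_pow, if_neg hm, zero_mul]

theorem Conv.differentiableOn (hp : Conv ε p) : DifferentiableOn ℂ (fn p) (ball 0 ε) := by
  intro σ hσ
  rw [mem_ball_zero_iff] at hσ
  obtain ⟨r, hr1, hr2⟩ := exists_between hσ
  have hr0 : 0 ≤ r := (norm_nonneg σ).trans hr1.le
  have hd : DifferentiableOn ℂ (fun w : ℂ => ∑' n, coeff n p * w ^ n) (ball 0 r) := by
    refine Complex.differentiableOn_tsum_of_summable_norm (hp r hr0 hr2) (fun n => ?_) isOpen_ball
      (fun n w hw => ?_)
    · exact (differentiableOn_id.pow n).const_mul _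
    · rw [norm_mul, norm_pow]
      rw [mem_ball_zero_iff] at hw
      exact mul_le_mul_of_nonneg_left (pow_le_pow_left₀ (norm_nonneg _) hw.le n) (norm_nonneg _)
  have hd' : DifferentiableAt ℂ (fn p) σ :=
    hd.differentiableAt (isOpen_ball.mem_nhds (mem_ball_zero_iff.mpr hr1))
  exact hd'.differentiableWithinAt

theorem Conv.analyticOnNhd (hp : Conv ε p) : AnalyticOnNhd ℂ (fn p) (ball 0 ε) :=
  hp.differentiableOn.analyticOnNhd isOpen_ball

theorem Conv.analyticAt (hp : Conv ε p) (hσ : ‖σ‖ < ε) : AnalyticAt ℂ (fn p) σ :=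
  hp.analyticOnNhd σ (mem_ball_zero_iff.mpr hσ)

/-- The shifted series `p / X ^ order` converges on the same disc. -/
theorem Conv.divXPowOrder (hp : Conv ε p) : Conv ε (PowerSeries.divXPowOrder p) := by
  intro r hr hrε
  rcases eq_or_lt_of_le hr with rfl | hr0
  · refine summable_of_ne_finset_zero (s := {0}) fun n hn => ?_
    rw [zero_pow (by simpa using hn), mul_zero]
  · have h := (summable_nat_add_iff (f := fun n => ‖coeff n p‖ * r ^ n) p.order.toNat).mpr
      (hp r hr hrε)
    have h2 := h.mul_left ((r ^ p.order.toNat)⁻¹)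
    refine h2.congr fun n => ?_
    rw [coeff_divXPowOrder, pow_add]
    field_simp

/-- The analytic order at `0` of a convergent power series is its formal order. -/
theorem Conv.analyticOrderAt_zero (hε : 0 < ε) (hp : Conv ε p) :
    analyticOrderAt (fn p) 0 = p.order := by
  by_cases hp0 : p = 0
  · subst hp0
    rw [order_zero, analyticOrderAt_eq_top]
    exact Eventually.of_forall fun σ => fn_zero σ
  have hu := hp.divXPowOrder
  have h0 : ‖(0 : ℂ)‖ < ε := by simpa using hε
  have hev : fn p =ᶠ[𝓝 0] fun σ => σ ^ p.order.toNat * fn (PowerSeries.divXPowOrder p) σ := by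
    filter_upwards [isOpen_ball.mem_nhds (mem_ball_self hε)] with σ hσ
    rw [mem_ball_zero_iff] at hσ
    conv_lhs => rw [← X_pow_order_mul_divXPowOrder (f := p)]
    rw [fn_mul ((conv_X ε).pow _) hu hσ, fn_X_pow]
  rw [analyticOrderAt_congr hev]
  have ha1 : AnalyticAt ℂ (fun σ : ℂ => σ ^ p.order.toNat) 0 := analyticAt_id.pow _
  have ha2 : AnalyticAt ℂ (fn (PowerSeries.divXPowOrder p)) 0 := hu.analyticAt h0
  have h3 : analyticOrderAt ((fun σ : ℂ => σ ^ p.order.toNat) * fn (PowerSeries.divXPowOrder p)) 0 =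
      analyticOrderAt (fun σ : ℂ => σ ^ p.order.toNat) 0 +
        analyticOrderAt (fn (PowerSeries.divXPowOrder p)) 0 := analyticOrderAt_mul ha1 ha2
  have h4 : analyticOrderAt (fn (PowerSeries.divXPowOrder p)) 0 = 0 := by
    rw [analyticOrderAt_eq_zero]
    right
    rw [fn_apply_zero]
    exact fun h => hp0 (constantCoeff_divXPowOrder_eq_zero_iff.mp h)
  have h5 : analyticOrderAt (fun σ : ℂ => σ ^ p.order.toNat) 0 = p.order.toNat := by
    have := analyticOrderAt_centeredMonomial (𝕜 := ℂ) (z₀ := 0) (n := p.order.toNat)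
    have he : ((fun x : ℂ => x - 0) ^ p.order.toNat) = fun σ : ℂ => σ ^ p.order.toNat := by
      funext σ
      simp
    rwa [he] at this
  have h6 : (p.order.toNat : ℕ∞) = p.order :=
    ENat.natCast_toNat (by rwa [ne_eq, order_eq_top])
  calc analyticOrderAt (fun σ => σ ^ p.order.toNat * fn (PowerSeries.divXPowOrder p) σ) 0
      = analyticOrderAt ((fun σ : ℂ => σ ^ p.order.toNat) * fn (PowerSeries.divXPowOrder p)) 0 := rfl
    _ = p.order := by rw [h3, h4, h5, add_zero, h6]

/-- Identity theorem: a nonzero convergent power series has finite analytic order at every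
point of its disc. -/
theorem Conv.analyticOrderAt_ne_top (hε : 0 < ε) (hp : Conv ε p) (hp0 : p ≠ 0) {τ : ℂ}
    (hτ : ‖τ‖ < ε) : analyticOrderAt (fn p) τ ≠ ⊤ := by
  refine hp.analyticOnNhd.analyticOrderAt_ne_top_of_isPreconnected
    (convex_ball (0 : ℂ) ε).isPreconnected (mem_ball_self hε) (mem_ball_zero_iff.mpr hτ) ?_
  rw [hp.analyticOrderAt_zero hε]
  rwa [ne_eq, order_eq_top]

/-- A nonzero convergent power series is nonzero on a punctured neighbourhood of every point
of its disc. -/
theorem Conv.eventually_ne_zero (hε : 0 < ε) (hp : Conv ε p) (hp0 : p ≠ 0) {τ : ℂ}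
    (hτ : ‖τ‖ < ε) : ∀ᶠ σ in 𝓝[≠] τ, fn p σ ≠ 0 := by
  rcases (hp.analyticAt hτ).eventually_eq_zero_or_eventually_ne_zero with h | h
  · exact absurd (analyticOrderAt_eq_top.mpr h) (hp.analyticOrderAt_ne_top hε hp0 hτ)
  · exact h

/-- Geometric growth of the coefficients gives convergence on a disc. -/
theorem conv_of_geom_bound {C R : ℝ} (hR : 0 < R)
    (h : ∀ k, ‖coeff k p‖ ≤ C * R ^ k) : Conv R⁻¹ p := by
  intro r hr hrR
  have hrR' : r * R < 1 := by
    have := mul_lt_mul_of_pos_right hrR hR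
    rwa [inv_mul_cancel₀ hR.ne'] at this
  have hC : 0 ≤ C := by
    have := h 0
    simp only [pow_zero, mul_one] at this
    exact (norm_nonneg _).trans this
  have hgeo : Summable fun n : ℕ => C * (r * R) ^ n :=
    (summable_geometric_of_lt_one (mul_nonneg hr hR.le) hrR').mul_left C
  refine Summable.of_nonneg_of_le (fun n => by positivity) (fun n => ?_) hgeo
  calc ‖coeff n p‖ * r ^ n ≤ C * R ^ n * r ^ n :=
        mul_le_mul_of_nonneg_right (h n) (pow_nonneg hr n)
    _ = C * (r * R) ^ n := by rw [mul_pow]; ring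

end

end Fermat.Agent.S27.H2186.Chart6746
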